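import Fermat.Agent.LT.T6.H783.BadSpec

/-!
# Row LT, tower T6, leaf T6.18f `LocRegC783` (local matching at a REGULAR point): SUB-SPEC (helper179)

OFF-MAIN.  Definitions + frozen sub-leaf Props.  The PROVED top is in `LocRegTop.lean`:

* `locReg_of_leaves179 : NormOpenC179 → OrdC179 → TwC179 → H783.LocRegC783`.

Mathlib + `T6/Spec.lean` (helper22) + `H783/BadSpec.lean` (helper783) only.

## The cut ([L] §6, step 2 of the header of `BadSpec.lean`)

`γ₀ ∈ GL₂(k)` regular, `χ(γ₀) = (tr γ₀, det γ₀)`; `Near179 γ₀ N γ` = `γ` lies in the `χ`-ball of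
radius `exp(-N)` around `χ(γ₀)`.

* `NormalFormC179` (algebra + square root): `γ` near `γ₀` is conjugate in `GL₂(k)` to
  `a + b γ₀`, `(a, b)` near `(0, 1)` (`b² = disc γ / disc γ₀`, `a = (tr γ - b tr γ₀) / 2`; two
  non-scalar matrices with the same characteristic polynomial are conjugate).
* `RootC179` (`l`-th roots near `1` in `k[γ₀]`, characteristic `0`, complete).
* `NearC179` (`⇐ NormalFormC179 + RootC179`): `γ` near `γ₀` is conjugate to `t ^ l γ₀`,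
  `t = a + b γ₀`, `(a, b)` near `(1, 0)`, `t ^ l γ₀ = A + B γ₀`, `(A, B)` near `(0, 1)`.
* `NormOpenC179` (`⇐ NearC179`): being a norm is constant near `γ₀`
  (`N(i(t) δ₀) = i(t ^ l γ₀)` if `N δ₀ = i(γ₀)`).
* `OrdC179` (`⇐ NormalFormC179`): there is a test function `f₀` (e.g. the indicator of
  `U(m) γ₀ U(m)`) whose orbit sums are a non-zero constant near `γ₀`
  (`y ↦ a + b y` maps the class of `γ₀` onto that of `a + b γ₀`, commutes with conjugation,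
  preserves centralisers and `Ω`).
* `TwC179` (`⇐ NearC179`, `NormInjC`, `TwCentC`): the twisted orbit sums of `φ` are constant on
  the norms near `γ₀` (`y ↦ (a + b N(y)) y` maps the `s`-class of `δ₀` onto that of `i(t) δ₀`).
-/

set_option autoImplicit false

open scoped Matrix

noncomputable section

namespace Fermat.Agent.LT.T6.H179

open Fermat.Agent.LT.T6 Fermat.Agent.LT.T6.H783

/-- `γ` lies in the `χ`-ball of radius `exp(-N)` around `χ(γ₀) = (tr γ₀, det γ₀)`. -/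
def Near179 {k : Type} [Field k] [Valued k Γ₀] (γ₀ : GL (Fin 2) k) (N : ℤ)
    (γ : GL (Fin 2) k) : Prop :=
  InChiBall783 (γ₀ : Matrix (Fin 2) (Fin 2) k).trace (γ₀ : Matrix (Fin 2) (Fin 2) k).det N γ

/-- **T6.18f.1 (normal form near a regular point).**  `γ` with `χ(γ)` near `χ(γ₀)` is conjugate
in `GL₂(k)` to `a + b γ₀` with `(a, b)` near `(0, 1)`. -/
def NormalFormC179 : Prop :=
  ∀ (k : Type) [Field k] [Valued k Γ₀] (q : ℕ), IsLocalField k q →
    ∀ γ₀ : GL (Fin 2) k, IsReg γ₀ → ∀ M : ℤ, ∃ N : ℤ, ∀ γ : GL (Fin 2) k, Near179 γ₀ N γ →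
      ∃ (g : GL (Fin 2) k) (a b : k),
        Valued.v a ≤ WithZero.exp (-M) ∧ Valued.v (b - 1) ≤ WithZero.exp (-M) ∧
        ((g⁻¹ * γ * g : GL (Fin 2) k) : Matrix (Fin 2) (Fin 2) k)
          = a • (1 : Matrix (Fin 2) (Fin 2) k) + b • (γ₀ : Matrix (Fin 2) (Fin 2) k)

/-- **T6.18f.2 (`l`-th roots near `1` in `k[γ₀]`).**  Every `a + b γ₀` with `(a, b)` near
`(1, 0)` is `(a' + b' γ₀) ^ l` with `(a', b')` near `(1, 0)` (Hensel / Newton in the
two-dimensional commutative algebra `k[γ₀]`; `k` complete of characteristic `0`). -/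
def RootC179 : Prop :=
  ∀ (k : Type) [Field k] [Valued k Γ₀] (q : ℕ), IsLocalField k q → ∀ l : ℕ, 0 < l →
    ∀ γ₀ : GL (Fin 2) k, IsReg γ₀ → ∀ M : ℤ, ∃ N : ℤ, ∀ a b : k,
      Valued.v (a - 1) ≤ WithZero.exp (-N) → Valued.v b ≤ WithZero.exp (-N) →
      ∃ a' b' : k, Valued.v (a' - 1) ≤ WithZero.exp (-M) ∧ Valued.v b' ≤ WithZero.exp (-M) ∧
        (a' • (1 : Matrix (Fin 2) (Fin 2) k) + b' • (γ₀ : Matrix (Fin 2) (Fin 2) k)) ^ l
          = a • (1 : Matrix (Fin 2) (Fin 2) k) + b • (γ₀ : Matrix (Fin 2) (Fin 2) k)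

/-- **T6.18f.3 (the elements near a regular point).**  `γ` with `χ(γ)` near `χ(γ₀)` is conjugate
in `GL₂(k)` to `t ^ l γ₀`, `t = a + b γ₀ ∈ GL₂(k)`, `(a, b)` near `(1, 0)`, and
`t ^ l γ₀ = A + B γ₀` with `(A, B)` near `(0, 1)`. -/
def NearC179 : Prop :=
  ∀ (k : Type) [Field k] [Valued k Γ₀] (q : ℕ), IsLocalField k q → ∀ l : ℕ, 0 < l →
    ∀ γ₀ : GL (Fin 2) k, IsReg γ₀ → ∀ M : ℤ, ∃ N : ℤ, ∀ γ : GL (Fin 2) k, Near179 γ₀ N γ →
      ∃ (g t : GL (Fin 2) k) (a b A B : k),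
        Valued.v (a - 1) ≤ WithZero.exp (-M) ∧ Valued.v b ≤ WithZero.exp (-M) ∧
        Valued.v A ≤ WithZero.exp (-M) ∧ Valued.v (B - 1) ≤ WithZero.exp (-M) ∧
        (t : Matrix (Fin 2) (Fin 2) k)
          = a • (1 : Matrix (Fin 2) (Fin 2) k) + b • (γ₀ : Matrix (Fin 2) (Fin 2) k) ∧
        ((t ^ l * γ₀ : GL (Fin 2) k) : Matrix (Fin 2) (Fin 2) k)
          = A • (1 : Matrix (Fin 2) (Fin 2) k) + B • (γ₀ : Matrix (Fin 2) (Fin 2) k) ∧
        γ = g * (t ^ l * γ₀) * g⁻¹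

/-- **T6.18f.4 (the norms are open and closed in the regular set).**  Near a regular `γ₀` either
every `γ` is a norm or none is. -/
def NormOpenC179 : Prop :=
  ∀ (k k' : Type) [Field k] [Field k'] [Valued k Γ₀] [Valued k' Γ₀] (q l e : ℕ)
    (i : k →+* k') (s : k' ≃+* k'),
    IsLocalField k q → IsLocalField k' (q ^ (l / e)) → IsLocalExt k k' l e i s →
    ∀ γ₀ : GL (Fin 2) k, IsReg γ₀ → ∃ N : ℤ, ∀ γ : GL (Fin 2) k, Near179 γ₀ N γ →
      (IsNormFrom l i s γ ↔ IsNormFrom l i s γ₀)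

/-- **T6.18f.5 (ordinary side).**  There is a test function whose orbit sums are a NON-ZERO
CONSTANT near the regular point `γ₀`. -/
def OrdC179 : Prop :=
  ∀ (k : Type) [Field k] [Valued k Γ₀] (q : ℕ), IsLocalField k q →
    ∀ γ₀ : GL (Fin 2) k, IsReg γ₀ →
      ∃ (N : ℤ) (m : ℕ) (f₀ : GL (Fin 2) k → ℂ) (κ : ℂ), κ ≠ 0 ∧
        IsBiInv (InU m) f₀ ∧ HasFinSupp (InU m) f₀ ∧
        ∀ (γ : GL (Fin 2) k) (c : ℂ), Near179 γ₀ N γ → IsOrbSum m f₀ γ c → c = κ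

/-- **T6.18f.6 (twisted side).**  The twisted orbit sums of `φ` are constant on the norms near
the regular point `γ₀`. -/
def TwC179 : Prop :=
  ∀ (k k' : Type) [Field k] [Field k'] [Valued k Γ₀] [Valued k' Γ₀] (q l e : ℕ)
    (i : k →+* k') (s : k' ≃+* k') (n : ℕ) (φ : GL (Fin 2) k' → ℂ),
    BadData783 k k' q l e i s n φ →
    ∀ γ₀ : GL (Fin 2) k, IsReg γ₀ → ∃ N : ℤ,
      ∀ (γ γ' : GL (Fin 2) k) (δ δ' : GL (Fin 2) k') (c c' : ℂ),
        Near179 γ₀ N γ → Near179 γ₀ N γ' →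
        IsConj (twNorm s l δ) (Matrix.GeneralLinearGroup.map i γ) →
        IsConj (twNorm s l δ') (Matrix.GeneralLinearGroup.map i γ') →
        IsTwOrbSum s n φ δ c → IsTwOrbSum s n φ δ' c' → c = c'

end Fermat.Agent.LT.T6.H179

end
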