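import Fermat.Agent.LT.T6.H179.LocRegSpec

/-!
# Row LT, tower T6, leaf T6.18f `LocRegC783`: the PROVED top (helper179)

`locReg_of_leaves179 : NormOpenC179 → OrdC179 → TwC179 → H783.LocRegC783`.

OFF-MAIN.  Mathlib + `T6/Spec.lean` + `H783/BadSpec.lean` + `H179/LocRegSpec.lean` only.
-/

set_option autoImplicit false

open scoped Matrix

noncomputable section

namespace Fermat.Agent.LT.T6.H179

open Fermat.Agent.LT.T6 Fermat.Agent.LT.T6.H783

section Companion

variable {k : Type} [Field k]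

/-- The companion matrix of `X² - t X + d`. -/
def compMat179 (t d : k) : Matrix (Fin 2) (Fin 2) k := !![0, -d; 1, t]

theorem compMat179_det (t d : k) : (compMat179 t d).det = d := by
  simp [compMat179, Matrix.det_fin_two]

theorem compMat179_trace (t d : k) : (compMat179 t d).trace = t := by
  simp [compMat179, Matrix.trace_fin_two]

/-- The companion matrix as an element of `GL₂(k)`. -/
def comp179 (t d : k) (hd : d ≠ 0) : GL (Fin 2) k :=
  Matrix.GeneralLinearGroup.mkOfDetNeZero (compMat179 t d) (by rw [compMat179_det]; exact hd)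

theorem comp179_coe (t d : k) (hd : d ≠ 0) :
    ((comp179 t d hd : GL (Fin 2) k) : Matrix (Fin 2) (Fin 2) k) = compMat179 t d := rfl

theorem comp179_isReg (t d : k) (hd : d ≠ 0) (h : t ^ 2 - 4 * d ≠ 0) :
    IsReg (comp179 t d hd) := by
  unfold IsReg disc
  rw [comp179_coe, compMat179_trace, compMat179_det]
  exact isUnit_iff_ne_zero.mpr h

end Companion

section Ball

variable {k : Type} [Field k] [Valued k Γ₀]

theorem near179_comp_iff (t d : k) (hd : d ≠ 0) (N : ℤ) (γ : GL (Fin 2) k) :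
    Near179 (comp179 t d hd) N γ ↔ InChiBall783 t d N γ := by
  unfold Near179
  rw [comp179_coe, compMat179_trace, compMat179_det]

theorem near179_mono {γ₀ γ : GL (Fin 2) k} {N N' : ℤ} (h : N' ≤ N) (hγ : Near179 γ₀ N γ) :
    Near179 γ₀ N' γ := by
  have he : WithZero.exp (-N) ≤ WithZero.exp (-N') := by
    rw [WithZero.exp_le_exp]; omega
  exact ⟨hγ.1.trans he, hγ.2.trans he⟩

end Ball

section OrbSum

variable {k : Type} [Field k] [Valued k Γ₀]

/-- The orbit sums of the zero function vanish. -/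
theorem isOrbSum_zero179 (m : ℕ) (γ : GL (Fin 2) k) (c : ℂ)
    (h : IsOrbSum m (fun _ => (0 : ℂ)) γ c) : c = 0 := by
  obtain ⟨R, -, -, -, hc⟩ := h
  rw [hc]
  simp

/-- Orbit sums are homogeneous: from `λ f` (`λ ≠ 0`) to `f`. -/
theorem isOrbSum_of_smul179 (m : ℕ) (f : GL (Fin 2) k → ℂ) (γ : GL (Fin 2) k) (lam c : ℂ)
    (hlam : lam ≠ 0) (h : IsOrbSum m (fun g => lam * f g) γ c) : IsOrbSum m f γ (c / lam) := by
  obtain ⟨R, h1, h2, h3, hc⟩ := h
  refine ⟨R, h1, h2, ?_, ?_⟩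
  · intro y hy hfy
    exact h3 y hy (mul_ne_zero hlam hfy)
  · rw [hc, Finset.sum_div]
    refine Finset.sum_congr rfl ?_
    intro y _
    field_simp

end OrbSum

/-- **THE LEAF `T6.18f` FROM ITS SUB-LEAVES.** -/
theorem locReg_of_leaves179 (hNO : NormOpenC179) (hOrd : OrdC179) (hTw : TwC179) :
    LocRegC783 := by
  intro k k' _ _ _ _ q l e i s n φ hB t₀ d₀ hd hdisc
  classical
  set γ₀ : GL (Fin 2) k := comp179 t₀ d₀ hd with hγ₀
  have hreg₀ : IsReg γ₀ := comp179_isReg t₀ d₀ hd hdisc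
  obtain ⟨N₃, hN₃⟩ := hNO k k' q l e i s hB.hk hB.hk' hB.ext γ₀ hreg₀
  by_cases hnorm : IsNormFrom l i s γ₀
  · -- `γ₀` is a norm
    obtain ⟨N₁, m, f₀, κ, hκ, hinv, hsupp, hconst⟩ := hOrd k q hB.hk γ₀ hreg₀
    obtain ⟨N₂, hN₂⟩ := hTw k k' q l e i s n φ hB γ₀ hreg₀
    -- the common value of the twisted orbit sums
    let P : ℂ → Prop := fun c => ∃ (γ : GL (Fin 2) k) (δ : GL (Fin 2) k'),
      Near179 γ₀ N₂ γ ∧ IsConj (twNorm s l δ) (Matrix.GeneralLinearGroup.map i γ) ∧
        IsTwOrbSum s n φ δ c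
    let τ : ℂ := if h : ∃ c, P c then h.choose else 0
    have hτ : ∀ (γ : GL (Fin 2) k) (δ : GL (Fin 2) k') (c : ℂ), Near179 γ₀ N₂ γ →
        IsConj (twNorm s l δ) (Matrix.GeneralLinearGroup.map i γ) → IsTwOrbSum s n φ δ c →
        c = τ := by
      intro γ δ c h1 h2 h3
      have hex : ∃ c, P c := ⟨c, γ, δ, h1, h2, h3⟩
      have hτ' : τ = hex.choose := dif_pos hex
      obtain ⟨γ', δ', h1', h2', h3'⟩ := hex.choose_spec
      rw [hτ']
      exact hN₂ γ γ' δ δ' c hex.choose h1 h1' h2 h2' h3 h3'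
    refine ⟨max N₁ (max N₂ N₃), m, fun g => τ / κ * f₀ g, ?_, ?_, ?_, ?_⟩
    · intro u u' g hu hu'
      show τ / κ * f₀ (u * g * u') = τ / κ * f₀ g
      rw [hinv u u' g hu hu']
    · obtain ⟨F, hF⟩ := hsupp
      refine ⟨F, fun g hg => hF g ?_⟩
      intro h0
      apply hg
      show τ / κ * f₀ g = 0
      rw [h0, mul_zero]
    · intro δ γ c c' _ hball hconj hc hc'
      have hball' : Near179 γ₀ (max N₁ (max N₂ N₃)) γ :=
        (near179_comp_iff t₀ d₀ hd _ γ).mpr hball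
      have hb₁ : Near179 γ₀ N₁ γ := near179_mono (le_max_left _ _) hball'
      have hb₂ : Near179 γ₀ N₂ γ :=
        near179_mono ((le_max_left _ _).trans (le_max_right _ _)) hball'
      have hcτ : c = τ := hτ γ δ c hb₂ hconj hc
      by_cases hτ0 : τ = 0
      · have hf0 : (fun g => τ / κ * f₀ g) = fun _ => (0 : ℂ) := by
          funext g; rw [hτ0]; simp
        rw [hf0] at hc'
        rw [hcτ, hτ0, isOrbSum_zero179 m γ c' hc']
      · have hlam : τ / κ ≠ 0 := div_ne_zero hτ0 hκ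
        have h1 := isOrbSum_of_smul179 m f₀ γ (τ / κ) c' hlam hc'
        have h2 := hconst γ _ hb₁ h1
        rw [div_eq_iff hlam] at h2
        rw [hcτ, h2]
        field_simp
    · intro γ c' _ hball hnot _
      exfalso
      have hball' : Near179 γ₀ (max N₁ (max N₂ N₃)) γ :=
        (near179_comp_iff t₀ d₀ hd _ γ).mpr hball
      have hb₃ : Near179 γ₀ N₃ γ :=
        near179_mono ((le_max_right _ _).trans (le_max_right _ _)) hball'
      exact hnot ((hN₃ γ hb₃).mpr hnorm)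
  · -- `γ₀` is not a norm: no norm nearby, `f = 0`
    refine ⟨N₃, 0, fun _ => 0, ?_, ?_, ?_, ?_⟩
    · intro u u' g _ _
      rfl
    · exact ⟨∅, fun g hg => absurd rfl hg⟩
    · intro δ γ c c' _ hball hconj _ _
      exfalso
      have hb₃ : Near179 γ₀ N₃ γ := (near179_comp_iff t₀ d₀ hd _ γ).mpr hball
      exact hnorm ((hN₃ γ hb₃).mp ⟨δ, hconj⟩)
    · intro γ c' _ _ _ hc'
      exact isOrbSum_zero179 0 γ c' hc'

end Fermat.Agent.LT.T6.H179

end
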