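import Fermat.Agent.LT.T6.H179.TwLoc

/-!
# Row LT, tower T6, sub-leaf T6.18f.6 `TwC179` (twisted side), helper179

OFF-MAIN.  `tw_of179 : NearC179 → NormInjC → TwCentC → OrbSumUniqC → TwC179` and, with the DONE
leaves `normInjC848`, `twCentC166`, `orbSumUniqC944` (vendored byte-identical),
`tw_of_near179 : NearC179 → TwC179`.
-/

set_option autoImplicit false
set_option linter.unusedSectionVars false

open scoped Matrix

noncomputable section

namespace Fermat.Agent.LT.T6.H179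

open Fermat.Agent.LT.T6 Fermat.Agent.LT.T6.H783 Fermat.Agent.LT.T6.H944 Fermat.Agent.LT.T6.H420

section Aux

variable {k k' : Type} [Field k] [Field k']

/-- Regularity passes to `GL₂(k')`. -/
theorem isReg_map179 (i : k →+* k') (γ : GL (Fin 2) k) (h : IsReg γ) :
    IsReg (Matrix.GeneralLinearGroup.map i γ) := by
  unfold IsReg disc at h ⊢
  have e : ((Matrix.GeneralLinearGroup.map i γ : GL (Fin 2) k') :
        Matrix (Fin 2) (Fin 2) k').trace ^ 2
      - 4 * ((Matrix.GeneralLinearGroup.map i γ : GL (Fin 2) k') :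
        Matrix (Fin 2) (Fin 2) k').det
      = i ((γ : Matrix (Fin 2) (Fin 2) k).trace ^ 2 - 4 * (γ : Matrix (Fin 2) (Fin 2) k).det) := by
    rw [Matrix.trace_fin_two, Matrix.det_fin_two, Matrix.trace_fin_two, Matrix.det_fin_two]
    simp only [Matrix.GeneralLinearGroup.map_apply, map_sub, map_mul, map_add, map_pow,
      map_ofNat]
  rw [e]
  exact isUnit_iff_ne_zero.mpr (fun h0 => h.ne_zero (i.injective (by rw [h0, map_zero])))

end Aux

section Bound

variable {k : Type} [Field k] [Valued k Γ₀]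

theorem entryLe_mono179 {A : Matrix (Fin 2) (Fin 2) k} {M M' : Γ₀} (h : EntryLe A M)
    (hM : M ≤ M') : EntryLe A M' := fun p r => (h p r).trans hM

/-- A function of finite support modulo `U(n)` is supported on a bounded set. -/
theorem exists_bound179 (n : ℕ) (φ : GL (Fin 2) k → ℂ) (h : HasFinSupp (InU n) φ) :
    ∃ Cb : Γ₀, 1 ≤ Cb ∧
      ∀ g : GL (Fin 2) k, φ g ≠ 0 → EntryLe (g : Matrix (Fin 2) (Fin 2) k) Cb := by
  obtain ⟨F, hF⟩ := h
  refine ⟨F.sup (fun x => entryMax x) ⊔ 1, le_sup_right, ?_⟩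
  intro g hg
  obtain ⟨x, hx, u, hu, rfl⟩ := hF g hg
  have h1 : EntryLe (x : Matrix (Fin 2) (Fin 2) k) (F.sup (fun x => entryMax x) ⊔ 1) :=
    entryLe_mono179 (entryLe_entryMax x)
      ((Finset.le_sup (f := fun x => entryMax x) hx).trans le_sup_left)
  have h2 := h1.mul (entryLe_of_inU hu)
  rw [mul_one] at h2
  rw [Units.val_mul]
  exact h2

end Bound

/-- **T6.18f.6 `TwC179`** from `NearC179` and the DONE leaves of Part A / B of the tower. -/
theorem tw_of179 (hNear : NearC179) (hNI : NormInjC) (hTC : TwCentC) (hUq : OrbSumUniqC) :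
    TwC179 := by
  intro k k' _ _ _ _ q l e i s n φ hB γ₀ hreg
  have hcyc := hB.ext.cyc
  have hvs := hB.ext.val_s
  have hvi := hB.ext.val_i
  have he := hB.ext.e_pos
  obtain ⟨Cb, hCb1, hCb⟩ := exists_bound179 n φ hB.supp
  -- the thresholds
  set n'' : ℕ := max n 1 with hn''
  set L : ℕ := (WithZero.log (Cb ^ l)).natAbs with hL
  have hCbL : Cb ^ l ≤ WithZero.exp (L : ℤ) := le_exp_natAbs_log (Cb ^ l)
  obtain ⟨N, hN⟩ := hNear k q hB.hk l hB.prime.pos γ₀ hreg ((n'' : ℤ) + L)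
  have hM1 : (WithZero.exp (-((n'' : ℤ) + L)) : Γ₀) < 1 := by
    rw [← WithZero.exp_zero, WithZero.exp_lt_exp]
    have : 1 ≤ n'' := le_max_right n 1
    omega
  have hMn : (WithZero.exp (-((n'' : ℤ) + L)) : Γ₀) ≤ WithZero.exp (-(n'' : ℤ)) := by
    rw [WithZero.exp_le_exp]; omega
  -- small elements of `k` stay small in `k'`
  have hsmall : ∀ x : k, Valued.v x ≤ WithZero.exp (-((n'' : ℤ) + L)) →
      Valued.v (i x) ≤ WithZero.exp (-((n'' : ℤ) + L)) := by
    intro x hx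
    rw [hvi]
    have hx1 : Valued.v x ≤ 1 := hx.trans hM1.le
    calc Valued.v x ^ e ≤ Valued.v x ^ 1 := pow_le_pow_right_of_le_one' hx1 he
      _ = Valued.v x := pow_one _
      _ ≤ _ := hx
  refine ⟨N, ?_⟩
  -- every admissible triple gives an orbit sum at a `δ₀` with `N δ₀ = i(γ₀)`
  have key : ∀ (γ : GL (Fin 2) k) (δ : GL (Fin 2) k') (c : ℂ), Near179 γ₀ N γ →
      IsConj (twNorm s l δ) (Matrix.GeneralLinearGroup.map i γ) → IsTwOrbSum s n φ δ c →
      ∃ δ₀ : GL (Fin 2) k', twNorm s l δ₀ = Matrix.GeneralLinearGroup.map i γ₀ ∧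
        IsTwOrbSum s n φ δ₀ c := by
    intro γ δ c hnear hconj hc
    obtain ⟨g, t, a, b, A, B, ha, hb, hA, hBv, ht, hγ₁', hγ⟩ := hN γ hnear
    set γ₁ : GL (Fin 2) k := t ^ l * γ₀ with hγ₁
    -- `B` is a unit
    have hBval : Valued.v B = 1 := by
      have h1 : B = 1 + (B - 1) := by ring
      rw [h1]
      exact Valuation.map_one_add_of_lt _ (lt_of_le_of_lt hBv hM1)
    have hBne : B ≠ 0 := by
      intro h0
      rw [h0, map_zero] at hBval
      exact zero_ne_one hBval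
    have hreg₁ : IsReg γ₁ := isReg_lin179 γ₀ γ₁ A B hγ₁' hBne hreg
    -- `δ` is `s`-conjugate to `δ₁` with `N δ₁ = i(γ₁)`
    obtain ⟨z, hz⟩ := isConj_iff.mp hconj
    set x : GL (Fin 2) k' := z⁻¹ * Matrix.GeneralLinearGroup.map i g with hx
    set δ₁ : GL (Fin 2) k' := x⁻¹ * δ * glAut s x with hδ₁
    have hNδ : twNorm s l δ = z⁻¹ * Matrix.GeneralLinearGroup.map i γ * z := by
      rw [← hz]; group
    have hN₁ : twNorm s l δ₁ = Matrix.GeneralLinearGroup.map i γ₁ := by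
      rw [hδ₁, H848.twNorm_twConj848 s hcyc.order x δ, hNδ, hγ, hx]
      simp only [map_mul, map_inv]
      group
    have hc₁ : IsTwOrbSum s n φ δ₁ c :=
      orbSumGen_twConj179 (glAut s) (InU n) (InTwCentC s) φ δ x hc
    -- `δ₁` commutes with `i(t)`
    have hfix1 : glAut s (Matrix.GeneralLinearGroup.map i γ₁)
        = Matrix.GeneralLinearGroup.map i γ₁ := H166.glAut_map166 i s hcyc.fix_i γ₁
    have h1 := H848.glAut_twNorm848 s hcyc.order δ₁
    rw [hN₁, hfix1] at h1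
    have hc1 : δ₁ * Matrix.GeneralLinearGroup.map i γ₁
        = Matrix.GeneralLinearGroup.map i γ₁ * δ₁ := by
      calc δ₁ * Matrix.GeneralLinearGroup.map i γ₁
          = δ₁ * (δ₁⁻¹ * Matrix.GeneralLinearGroup.map i γ₁ * δ₁) := by rw [← h1]
        _ = Matrix.GeneralLinearGroup.map i γ₁ * δ₁ := by group
    have htγ₀ : t * γ₀ = γ₀ * t := comm_of_lin179 γ₀ t a b ht
    have htγ₁ : t * γ₁ = γ₁ * t := by
      have hc' : Commute t γ₁ := by
        rw [hγ₁]
        exact ((Commute.refl t).pow_right l).mul_right htγ₀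
      exact hc'.eq
    have hct : Matrix.GeneralLinearGroup.map i t * Matrix.GeneralLinearGroup.map i γ₁
        = Matrix.GeneralLinearGroup.map i γ₁ * Matrix.GeneralLinearGroup.map i t := by
      rw [← map_mul, ← map_mul, htγ₁]
    have hcomm : δ₁ * Matrix.GeneralLinearGroup.map i t
        = Matrix.GeneralLinearGroup.map i t * δ₁ :=
      H166.gl_comm_of_comm166 _ δ₁ _ (H166.nonscalar_map166 i γ₁ hreg₁) hc1 hct
    -- `δ₀ = i(t)⁻¹ δ₁`
    set δ₀ : GL (Fin 2) k' := (Matrix.GeneralLinearGroup.map i t)⁻¹ * δ₁ with hδ₀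
    have hδ₁' : Matrix.GeneralLinearGroup.map i t * δ₀ = δ₁ := by
      rw [hδ₀]; group
    have hfixt : glAut s (Matrix.GeneralLinearGroup.map i t)⁻¹
        = (Matrix.GeneralLinearGroup.map i t)⁻¹ := by
      rw [map_inv, H166.glAut_map166 i s hcyc.fix_i t]
    have hcomm' : δ₁ * (Matrix.GeneralLinearGroup.map i t)⁻¹
        = (Matrix.GeneralLinearGroup.map i t)⁻¹ * δ₁ := by
      have hc' : Commute δ₁ (Matrix.GeneralLinearGroup.map i t) := hcomm
      exact hc'.inv_right.eq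
    have hN₀ : twNorm s l δ₀ = Matrix.GeneralLinearGroup.map i γ₀ := by
      have h2 := twN_mul_fixed179 (glAut s) (Matrix.GeneralLinearGroup.map i t)⁻¹ δ₁ hfixt
        hcomm' l
      have h3 : twNorm s l δ₀ = twN (glAut s) l ((Matrix.GeneralLinearGroup.map i t)⁻¹ * δ₁) :=
        rfl
      have h4 : twN (glAut s) l δ₁ = Matrix.GeneralLinearGroup.map i γ₁ := hN₁
      rw [h3, h2, h4, hγ₁, map_mul, map_pow]
      group
    refine ⟨δ₀, hN₀, ?_⟩
    -- the estimates
    have ha' : Valued.v (i a - 1) ≤ WithZero.exp (-((max n 1 : ℕ) : ℤ)) := by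
      have h5 : i a - 1 = i (a - 1) := by rw [map_sub, map_one]
      rw [h5]
      exact (hsmall _ ha).trans hMn
    have hb' : Valued.v (i b) * Cb ^ l ≤ WithZero.exp (-((max n 1 : ℕ) : ℤ)) := by
      calc Valued.v (i b) * Cb ^ l
          ≤ WithZero.exp (-((n'' : ℤ) + L)) * WithZero.exp (L : ℤ) :=
            mul_le_mul' (hsmall _ hb) hCbL
        _ = WithZero.exp (-(n'' : ℤ)) := by
            rw [← WithZero.exp_add]
            congr 1
            ring
    have hA' : Valued.v (i A) ≤ 1 := (hsmall _ hA).trans hM1.le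
    have hB' : Valued.v (i B) = 1 := by rw [hvi, hBval, one_pow]
    refine core179 i s l hTC hcyc hvs n φ hB.inv Cb hCb1 hCb γ₀ t γ₁ a b A B ht hγ₁ hγ₁' hreg
      ha' hb' hA' hB' δ₀ hN₀ c ?_
    rw [hδ₁']
    exact hc₁
  intro γ γ' δ δ' c c' hb hb' hconj hconj' hc hc'
  obtain ⟨δ₀, hN₀, hc₀⟩ := key γ δ c hb hconj hc
  obtain ⟨δ₀', hN₀', hc₀'⟩ := key γ' δ' c' hb' hconj' hc'
  have hregN : IsReg (twNorm s l δ₀) := by
    rw [hN₀]
    exact isReg_map179 i γ₀ hreg
  have hconjN : IsConj (twNorm s l δ₀) (twNorm s l δ₀') := by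
    rw [hN₀, hN₀']
  obtain ⟨y, hy⟩ := hNI k k' l i s hcyc δ₀ δ₀' hregN hconjN
  have hc₀'' : IsTwOrbSum s n φ δ₀' c := by
    rw [hy]
    exact orbSumGen_twConj179 (glAut s) (InU n) (InTwCentC s) φ δ₀ y hc₀
  exact hUq k' s hvs n φ hB.inv δ₀' c c' hc₀'' hc₀'

/-- **T6.18f.6 `TwC179`** from `NearC179` alone (DONE leaves plugged). -/
theorem tw_of_near179 (hNear : NearC179) : TwC179 :=
  tw_of179 hNear H848.normInjC848 H166.twCentC166 H944.orbSumUniqC944

end Fermat.Agent.LT.T6.H179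

end
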