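import Fermat.Agent.LT.T6.H166.NormalForm
import Fermat.Agent.LT.T6.H962.RootQA
import Fermat.Agent.LT.T6.H568.NearC
import Fermat.Agent.LT.T6.H227.NormOpen
import Fermat.Agent.LT.T6.H179.Tw
import Fermat.Agent.LT.T6.H179.LocRegTop

/-!
# Row LT, tower T6, leaf T6.18f `LocRegC783`: running top (helper179, integration)

OFF-MAIN.  ONE import closure with byte-identical copies of the DONE sub-leaves:
`NormalFormC179` (helper166), `RootC179` (helper962), `NearC179` glue (helper568),
`NormOpenC179` (helper227), `TwC179` (helper179).  OPEN: `OrdC179` only.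
-/

set_option autoImplicit false

namespace Fermat.Agent.LT.T6.H179

open Fermat.Agent.LT.T6 Fermat.Agent.LT.T6.H783

theorem nearC179 : NearC179 :=
  H568.nearC_of568 H166.normalFormC166 H962.rootC962

theorem normOpenC179 : NormOpenC179 := H227.normOpen_of227 nearC179

theorem twC179 : TwC179 := tw_of_near179 nearC179

/-- **`LocRegC783` is open in `OrdC179` only.** -/
theorem locReg_of_ord179 (h : OrdC179) : LocRegC783 :=
  locReg_of_leaves179 normOpenC179 h twC179

end Fermat.Agent.LT.T6.H179
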