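import Fermat.Agent.LT.T6.H179.LocRegSpec
import Fermat.Agent.LT.T6.H848.NormInj
import Fermat.Agent.LT.T6.H166.TwCent
import Fermat.Agent.LT.T6.H944.OrbSumUniq
import Fermat.Agent.LT.T6.H420.Cpt

/-!
# Row LT, tower T6, sub-leaf T6.18f.6 `TwC179`: abstract part (helper179)

OFF-MAIN.  Group-theoretic and matrix lemmas:

* `orbSumGen_transfer179`: an orbit sum at `δ'` is an orbit sum at `δ` if `δ`, `δ'` have the same
  twisted centraliser and `φ`, `cIndex` agree at corresponding points `x⁻¹ δ s(x)`,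
  `x⁻¹ δ' s(x)`;
* `orbSumGen_twConj179`: orbit sums only depend on the `s`-conjugacy class of the base point;
* `twNorm_mul_fixed179`: `N(c δ) = c ^ l N(δ)` for `c` fixed by `s` and commuting with `δ`;
* `inU_of_near179`: an invertible matrix `≡ 1 mod ϖ ^ m`, `m ≥ 1`, lies in `U(m)`.
-/

set_option autoImplicit false

open scoped Matrix

noncomputable section

namespace Fermat.Agent.LT.T6.H179

open Fermat.Agent.LT.T6 Fermat.Agent.LT.T6.H783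

section Abstract

variable {Γ : Type} [Group Γ]

/-- Two points of the twisted class of `δ'` coincide iff the corresponding points of the twisted
class of `δ` do, provided the twisted centralisers agree. -/
theorem twc_eq_iff179 (s : Γ →* Γ) (δ δ' : Γ)
    (hcent : ∀ x : Γ, x⁻¹ * δ' * s x = δ' ↔ x⁻¹ * δ * s x = δ) (x z : Γ) :
    x⁻¹ * δ' * s x = z⁻¹ * δ' * s z ↔ x⁻¹ * δ * s x = z⁻¹ * δ * s z := by
  have key : ∀ d : Γ, x⁻¹ * d * s x = z⁻¹ * d * s z ↔ (x * z⁻¹)⁻¹ * d * s (x * z⁻¹) = d := by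
    intro d
    constructor
    · intro h
      have h1 : (x * z⁻¹)⁻¹ * d * s (x * z⁻¹) = z * (x⁻¹ * d * s x) * (s z)⁻¹ := by
        rw [map_mul, map_inv]; group
      rw [h1, h]; group
    · intro h
      have h1 : x⁻¹ * d * s x = z⁻¹ * ((x * z⁻¹)⁻¹ * d * s (x * z⁻¹)) * s z := by
        rw [map_mul, map_inv]; group
      rw [h1, h]
  rw [key δ', key δ]
  exact hcent _

/-- **Transfer of an orbit sum** along the correspondence `x⁻¹ δ' s(x) ↔ x⁻¹ δ s(x)`. -/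
theorem orbSumGen_transfer179 (s : Γ →* Γ) (U : Γ → Prop) (C : Γ → Γ → Prop) (φ : Γ → ℂ)
    (δ δ' : Γ)
    (hcent : ∀ x : Γ, x⁻¹ * δ' * s x = δ' ↔ x⁻¹ * δ * s x = δ)
    (hφ : ∀ x : Γ, φ (x⁻¹ * δ * s x) = φ (x⁻¹ * δ' * s x))
    (hC : ∀ x : Γ, cIndex U C (x⁻¹ * δ * s x) = cIndex U C (x⁻¹ * δ' * s x))
    {c : ℂ} (h : IsOrbSumGen s U C φ δ' c) : IsOrbSumGen s U C φ δ c := by
  classical
  obtain ⟨R', hR1, hR2, hR3, hc⟩ := h
  -- the correspondence as a function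
  let Ψ : Γ → Γ := fun y' =>
    if h : ∃ x : Γ, y' = x⁻¹ * δ' * s x then h.choose⁻¹ * δ * s h.choose else y'
  have hΨ : ∀ x : Γ, Ψ (x⁻¹ * δ' * s x) = x⁻¹ * δ * s x := by
    intro x
    have hex : ∃ z : Γ, x⁻¹ * δ' * s x = z⁻¹ * δ' * s z := ⟨x, rfl⟩
    have h1 : Ψ (x⁻¹ * δ' * s x) = hex.choose⁻¹ * δ * s hex.choose := dif_pos hex
    rw [h1]
    exact ((twc_eq_iff179 s δ δ' hcent x hex.choose).mp hex.choose_spec).symm
  refine ⟨R'.image Ψ, ?_, ?_, ?_, ?_⟩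
  · intro y hy
    obtain ⟨y', hy', rfl⟩ := Finset.mem_image.mp hy
    obtain ⟨x, rfl⟩ := hR1 y' hy'
    exact ⟨x, hΨ x⟩
  · intro y₁ hy₁ y₂ hy₂ hu
    obtain ⟨y₁', hy₁', rfl⟩ := Finset.mem_image.mp hy₁
    obtain ⟨y₂', hy₂', rfl⟩ := Finset.mem_image.mp hy₂
    obtain ⟨x₁, rfl⟩ := hR1 y₁' hy₁'
    obtain ⟨x₂, rfl⟩ := hR1 y₂' hy₂'
    obtain ⟨u, hu, e⟩ := hu
    rw [hΨ, hΨ] at e
    have e' : x₂⁻¹ * δ * s x₂ = (x₁ * u)⁻¹ * δ * s (x₁ * u) := by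
      rw [e, map_mul]; group
    have e'' := (twc_eq_iff179 s δ δ' hcent x₂ (x₁ * u)).mpr e'
    have h12 : x₁⁻¹ * δ' * s x₁ = x₂⁻¹ * δ' * s x₂ := by
      refine hR2 _ hy₁' _ hy₂' ⟨u, hu, ?_⟩
      rw [e'', map_mul]; group
    rw [h12]
  · intro z hz hφz
    obtain ⟨x, rfl⟩ := hz
    have hφz' : φ (x⁻¹ * δ' * s x) ≠ 0 := by rw [← hφ x]; exact hφz
    obtain ⟨y', hy', u, hu, e⟩ := hR3 _ ⟨x, rfl⟩ hφz'
    obtain ⟨x', rfl⟩ := hR1 y' hy'
    refine ⟨Ψ (x'⁻¹ * δ' * s x'), Finset.mem_image_of_mem Ψ hy', u, hu, ?_⟩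
    have e' : x⁻¹ * δ' * s x = (x' * u)⁻¹ * δ' * s (x' * u) := by
      rw [e, map_mul]; group
    have e'' := (twc_eq_iff179 s δ δ' hcent x (x' * u)).mp e'
    rw [e'', hΨ, map_mul]; group
  · rw [hc, Finset.sum_image]
    · refine Finset.sum_congr rfl ?_
      intro y' hy'
      obtain ⟨x, rfl⟩ := hR1 y' hy'
      rw [hΨ, hφ x, hC x]
    · intro y₁' hy₁' y₂' hy₂' e
      obtain ⟨x₁, rfl⟩ := hR1 y₁' hy₁'
      obtain ⟨x₂, rfl⟩ := hR1 y₂' hy₂'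
      rw [hΨ, hΨ] at e
      exact (twc_eq_iff179 s δ δ' hcent x₁ x₂).mpr e

/-- Orbit sums only depend on the `s`-conjugacy class of the base point. -/
theorem orbSumGen_twConj179 (s : Γ →* Γ) (U : Γ → Prop) (C : Γ → Γ → Prop) (φ : Γ → ℂ)
    (δ z : Γ) {c : ℂ} (h : IsOrbSumGen s U C φ δ c) :
    IsOrbSumGen s U C φ (z⁻¹ * δ * s z) c := by
  obtain ⟨R, hR1, hR2, hR3, hc⟩ := h
  refine ⟨R, ?_, hR2, ?_, hc⟩
  · intro y hy
    obtain ⟨x, rfl⟩ := hR1 y hy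
    refine ⟨z⁻¹ * x, ?_⟩
    rw [map_mul, map_inv]; group
  · intro y hy hφy
    obtain ⟨x, rfl⟩ := hy
    refine hR3 _ ⟨z * x, ?_⟩ hφy
    rw [map_mul]; group

/-- `N_n(c δ) = c ^ n N_n(δ)` for `c` fixed by `s` and commuting with `δ`. -/
theorem twN_mul_fixed179 (s : Γ →* Γ) (c δ : Γ) (hc : s c = c) (h : δ * c = c * δ) (n : ℕ) :
    twN s n (c * δ) = c ^ n * twN s n δ := by
  induction n with
  | zero => simp [twN]
  | succ n ih =>
    have h1 : twN s (n + 1) (c * δ) = c * δ * s (twN s n (c * δ)) := rfl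
    have h2 : twN s (n + 1) δ = δ * s (twN s n δ) := rfl
    have h3 : δ * c ^ n = c ^ n * δ := (Commute.pow_right (show Commute δ c from h) n).eq
    rw [h1, ih, h2, map_mul, map_pow, hc, pow_succ']
    calc c * δ * (c ^ n * s (twN s n δ)) = c * (δ * c ^ n) * s (twN s n δ) := by group
      _ = c * (c ^ n * δ) * s (twN s n δ) := by rw [h3]
      _ = c * c ^ n * (δ * s (twN s n δ)) := by group

end Abstract

end Fermat.Agent.LT.T6.H179

end
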