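import Fermat.Agent.LT.T6.H179.TwAbs

/-!
# Row LT, tower T6, sub-leaf T6.18f.6 `TwC179`: local part (helper179)

OFF-MAIN.
* `inU_of_near179`: an invertible matrix `≡ 1 mod ϖ ^ m`, `m ≥ 1`, lies in `U(m)`;
* `isReg_lin179`, `comm_lin_iff179`: `γ₁ = A + B γ₀`, `B ≠ 0`, is regular with `γ₀` and has the
  same centraliser;
* `core179`: the transfer of a twisted orbit sum from `i(t) δ₀` to `δ₀`.
-/

set_option autoImplicit false
set_option linter.unusedSectionVars false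

open scoped Matrix

noncomputable section

namespace Fermat.Agent.LT.T6.H179

open Fermat.Agent.LT.T6 Fermat.Agent.LT.T6.H783 Fermat.Agent.LT.T6.H944 Fermat.Agent.LT.T6.H420

section Near

variable {k : Type} [Field k] [Valued k Γ₀]

/-- An invertible matrix `≡ 1 mod ϖ ^ m`, `m ≥ 1`, lies in `U(m)`. -/
theorem inU_of_near179 (m : ℕ) (hm : 1 ≤ m) (w : GL (Fin 2) k)
    (hw : Near944 m (w : Matrix (Fin 2) (Fin 2) k)) : InU m w := by
  rw [inU_iff944]
  refine ⟨hw, ?_⟩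
  set W : Matrix (Fin 2) (Fin 2) k := (w : Matrix (Fin 2) (Fin 2) k) with hW
  set ε : Γ₀ := WithZero.exp (-(m : ℤ)) with hε
  have hε1 : ε < 1 := by
    rw [hε, ← WithZero.exp_zero, WithZero.exp_lt_exp]
    omega
  have h00 : Valued.v (W 0 0 - 1) ≤ ε := by
    have := hw 0 0
    rwa [Matrix.one_apply_eq] at this
  have h01 : Valued.v (W 0 1) ≤ ε := by
    have := hw 0 1
    rwa [Matrix.one_apply_ne (show (0 : Fin 2) ≠ 1 by decide), sub_zero] at this
  have h10 : Valued.v (W 1 0) ≤ ε := by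
    have := hw 1 0
    rwa [Matrix.one_apply_ne (show (1 : Fin 2) ≠ 0 by decide), sub_zero] at this
  have h11 : Valued.v (W 1 1 - 1) ≤ ε := by
    have := hw 1 1
    rwa [Matrix.one_apply_eq] at this
  have hεε : ε * ε ≤ ε := by
    calc ε * ε ≤ ε * 1 := mul_le_mul' le_rfl hε1.le
      _ = ε := mul_one _
  -- the determinant
  have hdet : W.det - 1 = (W 0 0 - 1) + (W 1 1 - 1) + (W 0 0 - 1) * (W 1 1 - 1) - W 0 1 * W 1 0 := by
    rw [Matrix.det_fin_two]; ring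
  have hd1 : Valued.v (W.det - 1) ≤ ε := by
    rw [hdet]
    refine (Valued.v.map_sub _ _).trans (max_le ?_ ?_)
    · refine (Valued.v.map_add _ _).trans (max_le ?_ ?_)
      · exact (Valued.v.map_add _ _).trans (max_le h00 h11)
      · rw [map_mul]
        exact (mul_le_mul' h00 h11).trans hεε
    · rw [map_mul]
      exact (mul_le_mul' h01 h10).trans hεε
  have hdv : Valued.v W.det = 1 := by
    have h1 : W.det = 1 + (W.det - 1) := by ring
    rw [h1]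
    exact Valuation.map_one_add_of_lt _ (lt_of_le_of_lt hd1 hε1)
  have hdne : W.det ≠ 0 := by
    intro h0
    rw [h0, map_zero] at hdv
    exact zero_ne_one hdv
  have hinv : ((w⁻¹ : GL (Fin 2) k) : Matrix (Fin 2) (Fin 2) k) = W.det⁻¹ • W.adjugate := by
    rw [Matrix.coe_units_inv, Matrix.inv_def, Ring.inverse_eq_inv']
  intro a b
  rw [hinv, Matrix.adjugate_fin_two]
  have hsc : ∀ x : k, Valued.v (W.det⁻¹ * x) = Valued.v x := by
    intro x
    rw [map_mul, map_inv₀, hdv, inv_one, one_mul]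
  fin_cases a <;> fin_cases b
  · have e : (W.det⁻¹ • !![W 1 1, -W 0 1; -W 1 0, W 0 0]) 0 0 - (1 : Matrix (Fin 2) (Fin 2) k) 0 0
        = W.det⁻¹ * ((W 1 1 - 1) - (W.det - 1)) := by
      simp only [Matrix.smul_apply, Matrix.of_apply, Matrix.cons_val', Matrix.cons_val_zero,
        Matrix.cons_val_fin_one, Matrix.one_apply_eq, smul_eq_mul]
      field_simp
      ring
    show Valued.v ((W.det⁻¹ • !![W 1 1, -W 0 1; -W 1 0, W 0 0]) 0 0
      - (1 : Matrix (Fin 2) (Fin 2) k) 0 0) ≤ ε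
    rw [e, hsc]
    exact (Valued.v.map_sub _ _).trans (max_le h11 hd1)
  · have e : (W.det⁻¹ • !![W 1 1, -W 0 1; -W 1 0, W 0 0]) 0 1 - (1 : Matrix (Fin 2) (Fin 2) k) 0 1
        = W.det⁻¹ * (-W 0 1) := by
      simp [Matrix.one_apply_ne]
    show Valued.v ((W.det⁻¹ • !![W 1 1, -W 0 1; -W 1 0, W 0 0]) 0 1
      - (1 : Matrix (Fin 2) (Fin 2) k) 0 1) ≤ ε
    rw [e, hsc, Valuation.map_neg]
    exact h01
  · have e : (W.det⁻¹ • !![W 1 1, -W 0 1; -W 1 0, W 0 0]) 1 0 - (1 : Matrix (Fin 2) (Fin 2) k) 1 0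
        = W.det⁻¹ * (-W 1 0) := by
      simp [Matrix.one_apply_ne]
    show Valued.v ((W.det⁻¹ • !![W 1 1, -W 0 1; -W 1 0, W 0 0]) 1 0
      - (1 : Matrix (Fin 2) (Fin 2) k) 1 0) ≤ ε
    rw [e, hsc, Valuation.map_neg]
    exact h10
  · have e : (W.det⁻¹ • !![W 1 1, -W 0 1; -W 1 0, W 0 0]) 1 1 - (1 : Matrix (Fin 2) (Fin 2) k) 1 1
        = W.det⁻¹ * ((W 0 0 - 1) - (W.det - 1)) := by
      simp only [Matrix.smul_apply, Matrix.of_apply, Matrix.cons_val', Matrix.cons_val_one,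
        Matrix.cons_val_fin_one, Matrix.one_apply_eq, smul_eq_mul]
      field_simp
      ring
    show Valued.v ((W.det⁻¹ • !![W 1 1, -W 0 1; -W 1 0, W 0 0]) 1 1
      - (1 : Matrix (Fin 2) (Fin 2) k) 1 1) ≤ ε
    rw [e, hsc]
    exact (Valued.v.map_sub _ _).trans (max_le h00 hd1)

/-- `U(m') ⊆ U(m)` for `m ≤ m'`. -/
theorem inU_mono179 {m m' : ℕ} (h : m ≤ m') {w : GL (Fin 2) k} (hw : InU m' w) : InU m w := by
  have he : (WithZero.exp (-(m' : ℤ)) : Γ₀) ≤ WithZero.exp (-(m : ℤ)) := by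
    rw [WithZero.exp_le_exp]; omega
  exact fun a b => ⟨(hw a b).1.trans he, (hw a b).2.trans he⟩

end Near

section Lin

variable {F : Type} [Field F]

theorem disc_lin179 (γ₀ γ₁ : GL (Fin 2) F) (A B : F)
    (h : (γ₁ : Matrix (Fin 2) (Fin 2) F)
      = A • (1 : Matrix (Fin 2) (Fin 2) F) + B • (γ₀ : Matrix (Fin 2) (Fin 2) F)) :
    disc γ₁ = B ^ 2 * disc γ₀ := by
  unfold disc
  rw [h, Matrix.trace_fin_two, Matrix.det_fin_two, Matrix.trace_fin_two, Matrix.det_fin_two]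
  simp only [Matrix.add_apply, Matrix.smul_apply, Matrix.one_apply_eq, smul_eq_mul,
    Matrix.one_apply_ne (show (0 : Fin 2) ≠ 1 by decide),
    Matrix.one_apply_ne (show (1 : Fin 2) ≠ 0 by decide)]
  ring

theorem isReg_lin179 (γ₀ γ₁ : GL (Fin 2) F) (A B : F)
    (h : (γ₁ : Matrix (Fin 2) (Fin 2) F)
      = A • (1 : Matrix (Fin 2) (Fin 2) F) + B • (γ₀ : Matrix (Fin 2) (Fin 2) F))
    (hB : B ≠ 0) (hreg : IsReg γ₀) : IsReg γ₁ := by
  unfold IsReg at hreg ⊢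
  rw [disc_lin179 γ₀ γ₁ A B h]
  exact (isUnit_iff_ne_zero.mpr (pow_ne_zero 2 hB)).mul hreg

/-- `γ₁ = A + B γ₀`, `B ≠ 0`: the same centraliser. -/
theorem comm_lin_iff179 (γ₀ γ₁ : GL (Fin 2) F) (A B : F)
    (h : (γ₁ : Matrix (Fin 2) (Fin 2) F)
      = A • (1 : Matrix (Fin 2) (Fin 2) F) + B • (γ₀ : Matrix (Fin 2) (Fin 2) F))
    (hB : B ≠ 0) (c : GL (Fin 2) F) : c * γ₁ = γ₁ * c ↔ c * γ₀ = γ₀ * c := by
  have e1 : (c * γ₁ = γ₁ * c) ↔ ((c : Matrix (Fin 2) (Fin 2) F) * γ₁ = γ₁ * c) := by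
    constructor
    · intro h1
      have := congrArg (fun z : GL (Fin 2) F => (z : Matrix (Fin 2) (Fin 2) F)) h1
      simpa using this
    · intro h1
      apply Units.ext
      simpa using h1
  have e0 : (c * γ₀ = γ₀ * c) ↔ ((c : Matrix (Fin 2) (Fin 2) F) * γ₀ = γ₀ * c) := by
    constructor
    · intro h1
      have := congrArg (fun z : GL (Fin 2) F => (z : Matrix (Fin 2) (Fin 2) F)) h1
      simpa using this
    · intro h1
      apply Units.ext
      simpa using h1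
  rw [e1, e0, h]
  simp only [Matrix.mul_add, Matrix.add_mul, Matrix.mul_smul, Matrix.smul_mul, Matrix.mul_one,
    Matrix.one_mul]
  constructor
  · intro h1
    have h2 : B • ((c : Matrix (Fin 2) (Fin 2) F) * γ₀) = B • ((γ₀ : Matrix (Fin 2) (Fin 2) F) * c) :=
      add_left_cancel h1
    have h3 := congrArg (fun X : Matrix (Fin 2) (Fin 2) F => B⁻¹ • X) h2
    simpa [smul_smul, inv_mul_cancel₀ hB] using h3
  · intro h1
    rw [h1]

end Lin

section Conj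

variable {F : Type} [Field F]

/-- Conjugation of `α + β h`. -/
theorem conj_lin179 (x g h : GL (Fin 2) F) (α β : F)
    (hg : (g : Matrix (Fin 2) (Fin 2) F)
      = α • (1 : Matrix (Fin 2) (Fin 2) F) + β • (h : Matrix (Fin 2) (Fin 2) F)) :
    ((x⁻¹ * g * x : GL (Fin 2) F) : Matrix (Fin 2) (Fin 2) F)
      = α • (1 : Matrix (Fin 2) (Fin 2) F)
        + β • ((x⁻¹ * h * x : GL (Fin 2) F) : Matrix (Fin 2) (Fin 2) F) := by
  have h1 : ((x⁻¹ : GL (Fin 2) F) : Matrix (Fin 2) (Fin 2) F) * (x : Matrix (Fin 2) (Fin 2) F)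
      = 1 := by
    rw [← Units.val_mul, inv_mul_cancel, Units.val_one]
  simp only [Units.val_mul, hg, Matrix.mul_add, Matrix.add_mul, Matrix.mul_smul,
    Matrix.smul_mul, Matrix.mul_one, h1]

/-- `t = a + b γ₀` commutes with `γ₀`. -/
theorem comm_of_lin179 (γ₀ t : GL (Fin 2) F) (a b : F)
    (ht : (t : Matrix (Fin 2) (Fin 2) F)
      = a • (1 : Matrix (Fin 2) (Fin 2) F) + b • (γ₀ : Matrix (Fin 2) (Fin 2) F)) :
    t * γ₀ = γ₀ * t := by
  apply Units.ext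
  simp only [Units.val_mul, ht, Matrix.mul_add, Matrix.add_mul, Matrix.mul_smul,
    Matrix.smul_mul, Matrix.mul_one, Matrix.one_mul]

end Conj

section Core

variable {k k' : Type} [Field k] [Field k'] [Valued k Γ₀] [Valued k' Γ₀]

/-- The image of `a + b γ₀` in `GL₂(k')`. -/
theorem map_lin179 (i : k →+* k') (γ₀ t : GL (Fin 2) k) (a b : k)
    (ht : (t : Matrix (Fin 2) (Fin 2) k)
      = a • (1 : Matrix (Fin 2) (Fin 2) k) + b • (γ₀ : Matrix (Fin 2) (Fin 2) k)) :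
    ((Matrix.GeneralLinearGroup.map i t : GL (Fin 2) k') : Matrix (Fin 2) (Fin 2) k')
      = i a • (1 : Matrix (Fin 2) (Fin 2) k')
        + i b • ((Matrix.GeneralLinearGroup.map i γ₀ : GL (Fin 2) k') :
            Matrix (Fin 2) (Fin 2) k') := by
  ext p r
  rw [Matrix.GeneralLinearGroup.map_apply, ht]
  simp only [Matrix.add_apply, Matrix.smul_apply, smul_eq_mul, map_add, map_mul,
    Matrix.GeneralLinearGroup.map_apply]
  by_cases h : p = r
  · subst h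
    simp
  · simp [Matrix.one_apply_ne h]

variable (i : k →+* k') (s : k' ≃+* k') (l : ℕ)

/-- `δ₀` commutes with `i(t)`, `t = a + b γ₀`, if `N δ₀ = i(γ₀)` is regular. -/
theorem comm_map_lin179 (hcyc : IsCyclicData k k' l i s) (γ₀ t : GL (Fin 2) k) (a b : k)
    (ht : (t : Matrix (Fin 2) (Fin 2) k)
      = a • (1 : Matrix (Fin 2) (Fin 2) k) + b • (γ₀ : Matrix (Fin 2) (Fin 2) k))
    (hreg : IsReg γ₀) (δ₀ : GL (Fin 2) k')
    (hN : twNorm s l δ₀ = Matrix.GeneralLinearGroup.map i γ₀) :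
    δ₀ * Matrix.GeneralLinearGroup.map i t = Matrix.GeneralLinearGroup.map i t * δ₀ := by
  have hfix0 : glAut s (Matrix.GeneralLinearGroup.map i γ₀) = Matrix.GeneralLinearGroup.map i γ₀ :=
    H166.glAut_map166 i s hcyc.fix_i γ₀
  have h1 := H848.glAut_twNorm848 s hcyc.order δ₀
  rw [hN, hfix0] at h1
  have hc0 : δ₀ * Matrix.GeneralLinearGroup.map i γ₀ = Matrix.GeneralLinearGroup.map i γ₀ * δ₀ := by
    calc δ₀ * Matrix.GeneralLinearGroup.map i γ₀
        = δ₀ * (δ₀⁻¹ * Matrix.GeneralLinearGroup.map i γ₀ * δ₀) := by rw [← h1]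
      _ = Matrix.GeneralLinearGroup.map i γ₀ * δ₀ := by group
  have hct : Matrix.GeneralLinearGroup.map i t * Matrix.GeneralLinearGroup.map i γ₀
      = Matrix.GeneralLinearGroup.map i γ₀ * Matrix.GeneralLinearGroup.map i t := by
    rw [← map_mul, ← map_mul, comm_of_lin179 γ₀ t a b ht]
  exact H166.gl_comm_of_comm166 _ δ₀ _ (H166.nonscalar_map166 i γ₀ hreg) hc0 hct

/-- `N(i(t) δ₀) = i(t ^ l γ₀)`. -/
theorem twNorm_shift179 (hcyc : IsCyclicData k k' l i s) (γ₀ t : GL (Fin 2) k) (a b : k)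
    (ht : (t : Matrix (Fin 2) (Fin 2) k)
      = a • (1 : Matrix (Fin 2) (Fin 2) k) + b • (γ₀ : Matrix (Fin 2) (Fin 2) k))
    (hreg : IsReg γ₀) (δ₀ : GL (Fin 2) k')
    (hN : twNorm s l δ₀ = Matrix.GeneralLinearGroup.map i γ₀) :
    twNorm s l (Matrix.GeneralLinearGroup.map i t * δ₀)
      = Matrix.GeneralLinearGroup.map i (t ^ l * γ₀) := by
  have hfixt : glAut s (Matrix.GeneralLinearGroup.map i t) = Matrix.GeneralLinearGroup.map i t :=
    H166.glAut_map166 i s hcyc.fix_i t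
  have hcomm := comm_map_lin179 i s l hcyc γ₀ t a b ht hreg δ₀ hN
  have h1 := twN_mul_fixed179 (glAut s) (Matrix.GeneralLinearGroup.map i t) δ₀ hfixt hcomm l
  have h2 : twNorm s l δ₀ = twN (glAut s) l δ₀ := rfl
  have h3 : twNorm s l (Matrix.GeneralLinearGroup.map i t * δ₀)
      = twN (glAut s) l (Matrix.GeneralLinearGroup.map i t * δ₀) := rfl
  rw [h3, h1, ← h2, hN, map_mul, map_pow]

/-- The twisted centralisers of `δ₀` and `i(t) δ₀` agree. -/
theorem inTwCent_shift_iff179 (hTC : TwCentC) (hcyc : IsCyclicData k k' l i s)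
    (γ₀ t γ₁ : GL (Fin 2) k) (a b A B : k)
    (ht : (t : Matrix (Fin 2) (Fin 2) k)
      = a • (1 : Matrix (Fin 2) (Fin 2) k) + b • (γ₀ : Matrix (Fin 2) (Fin 2) k))
    (hγ₁ : γ₁ = t ^ l * γ₀)
    (hγ₁' : (γ₁ : Matrix (Fin 2) (Fin 2) k)
      = A • (1 : Matrix (Fin 2) (Fin 2) k) + B • (γ₀ : Matrix (Fin 2) (Fin 2) k))
    (hB : B ≠ 0) (hreg : IsReg γ₀) (δ₀ : GL (Fin 2) k')
    (hN : twNorm s l δ₀ = Matrix.GeneralLinearGroup.map i γ₀) (x : GL (Fin 2) k') :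
    InTwCent s (Matrix.GeneralLinearGroup.map i t * δ₀) x ↔ InTwCent s δ₀ x := by
  have hN₁ : twNorm s l (Matrix.GeneralLinearGroup.map i t * δ₀)
      = Matrix.GeneralLinearGroup.map i γ₁ := by
    rw [hγ₁]
    exact twNorm_shift179 i s l hcyc γ₀ t a b ht hreg δ₀ hN
  have hreg₁ : IsReg γ₁ := isReg_lin179 γ₀ γ₁ A B hγ₁' hB hreg
  rw [hTC k k' l i s hcyc δ₀ γ₀ hreg hN x,
    hTC k k' l i s hcyc (Matrix.GeneralLinearGroup.map i t * δ₀) γ₁ hreg₁ hN₁ x]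
  constructor
  · rintro ⟨c, hc, rfl⟩
    exact ⟨c, (comm_lin_iff179 γ₀ γ₁ A B hγ₁' hB c).mp hc, rfl⟩
  · rintro ⟨c, hc, rfl⟩
    exact ⟨c, (comm_lin_iff179 γ₀ γ₁ A B hγ₁' hB c).mpr hc, rfl⟩

end Core

section Estimate

variable {k k' : Type} [Field k] [Field k'] [Valued k Γ₀] [Valued k' Γ₀]

theorem inU_one179 (n : ℕ) : InU n (1 : GL (Fin 2) k') := by
  intro a b
  simp

variable (i : k →+* k') (s : k' ≃+* k') (l : ℕ)

/-- **`φ` agrees at corresponding points** of the twisted classes of `δ₀` and `i(t) δ₀`. -/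
theorem phi_shift179 (hcyc : IsCyclicData k k' l i s)
    (hvs : ∀ y : k', Valued.v (s y) = Valued.v y)
    (n : ℕ) (φ : GL (Fin 2) k' → ℂ) (hinv : IsBiInv (InU n) φ)
    (Cb : Γ₀) (hCb1 : 1 ≤ Cb)
    (hCb : ∀ g : GL (Fin 2) k', φ g ≠ 0 → EntryLe (g : Matrix (Fin 2) (Fin 2) k') Cb)
    (γ₀ t γ₁ : GL (Fin 2) k) (a b A B : k)
    (ht : (t : Matrix (Fin 2) (Fin 2) k)
      = a • (1 : Matrix (Fin 2) (Fin 2) k) + b • (γ₀ : Matrix (Fin 2) (Fin 2) k))
    (hγ₁ : γ₁ = t ^ l * γ₀)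
    (hγ₁' : (γ₁ : Matrix (Fin 2) (Fin 2) k)
      = A • (1 : Matrix (Fin 2) (Fin 2) k) + B • (γ₀ : Matrix (Fin 2) (Fin 2) k))
    (hreg : IsReg γ₀)
    (ha : Valued.v (i a - 1) ≤ WithZero.exp (-((max n 1 : ℕ) : ℤ)))
    (hb : Valued.v (i b) * Cb ^ l ≤ WithZero.exp (-((max n 1 : ℕ) : ℤ)))
    (hA : Valued.v (i A) ≤ 1) (hB : Valued.v (i B) = 1)
    (δ₀ : GL (Fin 2) k') (hN : twNorm s l δ₀ = Matrix.GeneralLinearGroup.map i γ₀)
    (x : GL (Fin 2) k') :
    φ (x⁻¹ * δ₀ * glAut s x)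
      = φ (x⁻¹ * (Matrix.GeneralLinearGroup.map i t * δ₀) * glAut s x) := by
  set y : GL (Fin 2) k' := x⁻¹ * δ₀ * glAut s x with hy
  set y' : GL (Fin 2) k' := x⁻¹ * (Matrix.GeneralLinearGroup.map i t * δ₀) * glAut s x with hy'
  set W : GL (Fin 2) k' := x⁻¹ * Matrix.GeneralLinearGroup.map i t * x with hW
  have hy'W : y' = W * y := by
    rw [hy', hW, hy]; group
  have hNy : twNorm s l y = x⁻¹ * Matrix.GeneralLinearGroup.map i γ₀ * x := by
    rw [hy, H848.twNorm_twConj848 s hcyc.order x δ₀, hN]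
  have hNy' : twNorm s l y' = x⁻¹ * Matrix.GeneralLinearGroup.map i γ₁ * x := by
    rw [hy', H848.twNorm_twConj848 s hcyc.order x _,
      twNorm_shift179 i s l hcyc γ₀ t a b ht hreg δ₀ hN, ← hγ₁]
  have hWm : (W : Matrix (Fin 2) (Fin 2) k')
      = i a • (1 : Matrix (Fin 2) (Fin 2) k')
        + i b • ((twNorm s l y : GL (Fin 2) k') : Matrix (Fin 2) (Fin 2) k') := by
    rw [hNy]
    exact conj_lin179 x _ _ (i a) (i b) (map_lin179 i γ₀ t a b ht)
  have hNm : ((twNorm s l y' : GL (Fin 2) k') : Matrix (Fin 2) (Fin 2) k')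
      = i A • (1 : Matrix (Fin 2) (Fin 2) k')
        + i B • ((twNorm s l y : GL (Fin 2) k') : Matrix (Fin 2) (Fin 2) k') := by
    rw [hNy', hNy]
    exact conj_lin179 x _ _ (i A) (i B) (map_lin179 i γ₀ γ₁ A B hγ₁')
  have hCbl : (1 : Γ₀) ≤ Cb ^ l := one_le_pow_of_one_le' hCb1 l
  by_cases h0 : φ y = 0 ∧ φ y' = 0
  · rw [h0.1, h0.2]
  -- the entries of `N(y)` are bounded
  have hE : EntryLe ((twNorm s l y : GL (Fin 2) k') : Matrix (Fin 2) (Fin 2) k') (Cb ^ l) := by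
    by_cases hφy : φ y = 0
    · have hφy' : φ y' ≠ 0 := fun h => h0 ⟨hφy, h⟩
      have hE' := entryLe_twNorm hvs (hCb y' hφy') l
      have hBne : i B ≠ 0 := by
        intro h
        rw [h, map_zero] at hB
        exact zero_ne_one hB
      intro p r
      have e : ((twNorm s l y : GL (Fin 2) k') : Matrix (Fin 2) (Fin 2) k') p r
          = (i B)⁻¹ * (((twNorm s l y' : GL (Fin 2) k') : Matrix (Fin 2) (Fin 2) k') p r
            - i A * (1 : Matrix (Fin 2) (Fin 2) k') p r) := by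
        rw [hNm]
        simp only [Matrix.add_apply, Matrix.smul_apply, smul_eq_mul]
        field_simp
        ring
      rw [e, map_mul, map_inv₀, hB, inv_one, one_mul]
      refine (Valued.v.map_sub _ _).trans (max_le (hE' p r) ?_)
      rw [map_mul]
      calc Valued.v (i A) * Valued.v ((1 : Matrix (Fin 2) (Fin 2) k') p r)
          ≤ 1 * 1 := mul_le_mul' hA (EntryLe.one p r)
        _ = 1 := mul_one _
        _ ≤ Cb ^ l := hCbl
    · exact entryLe_twNorm hvs (hCb y hφy) l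
  -- `W ≡ 1`
  have hnear : Near944 (max n 1) (W : Matrix (Fin 2) (Fin 2) k') := by
    intro p r
    have e : (W : Matrix (Fin 2) (Fin 2) k') p r - (1 : Matrix (Fin 2) (Fin 2) k') p r
        = (i a - 1) * (1 : Matrix (Fin 2) (Fin 2) k') p r
          + i b * ((twNorm s l y : GL (Fin 2) k') : Matrix (Fin 2) (Fin 2) k') p r := by
      rw [hWm]
      simp only [Matrix.add_apply, Matrix.smul_apply, smul_eq_mul]
      ring
    rw [e]
    refine (Valued.v.map_add _ _).trans (max_le ?_ ?_)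
    · rw [map_mul]
      calc Valued.v (i a - 1) * Valued.v ((1 : Matrix (Fin 2) (Fin 2) k') p r)
          ≤ WithZero.exp (-((max n 1 : ℕ) : ℤ)) * 1 := mul_le_mul' ha (EntryLe.one p r)
        _ = WithZero.exp (-((max n 1 : ℕ) : ℤ)) := mul_one _
    · rw [map_mul]
      exact (mul_le_mul' le_rfl (hE p r)).trans hb
  have hWU : InU n W :=
    inU_mono179 (le_max_left n 1) (inU_of_near179 (max n 1) (le_max_right n 1) W hnear)
  have h1 := hinv W 1 y hWU (inU_one179 n)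
  rw [mul_one] at h1
  rw [hy'W, h1]

/-- **The indices agree at corresponding points.** -/
theorem cIndex_shift179 (hTC : TwCentC) (hcyc : IsCyclicData k k' l i s) (n : ℕ)
    (γ₀ t γ₁ : GL (Fin 2) k) (a b A B : k)
    (ht : (t : Matrix (Fin 2) (Fin 2) k)
      = a • (1 : Matrix (Fin 2) (Fin 2) k) + b • (γ₀ : Matrix (Fin 2) (Fin 2) k))
    (hγ₁ : γ₁ = t ^ l * γ₀)
    (hγ₁' : (γ₁ : Matrix (Fin 2) (Fin 2) k)
      = A • (1 : Matrix (Fin 2) (Fin 2) k) + B • (γ₀ : Matrix (Fin 2) (Fin 2) k))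
    (hB : B ≠ 0) (hreg : IsReg γ₀) (δ₀ : GL (Fin 2) k')
    (hN : twNorm s l δ₀ = Matrix.GeneralLinearGroup.map i γ₀) (x : GL (Fin 2) k') :
    cIndex (InU n) (InTwCentC s) (x⁻¹ * δ₀ * glAut s x)
      = cIndex (InU n) (InTwCentC s)
          (x⁻¹ * (Matrix.GeneralLinearGroup.map i t * δ₀) * glAut s x) := by
  have hpred : ∀ w : GL (Fin 2) k', InTwCentC s (x⁻¹ * δ₀ * glAut s x) w
      ↔ InTwCentC s (x⁻¹ * (Matrix.GeneralLinearGroup.map i t * δ₀) * glAut s x) w := by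
    intro w
    rw [inTwCentC_conj944, inTwCentC_conj944]
    unfold InTwCentC
    rw [inTwCent_shift_iff179 i s l hTC hcyc γ₀ t γ₁ a b A B ht hγ₁ hγ₁' hB hreg δ₀ hN]
  unfold cIndex
  congr 1
  ext c
  constructor
  · rintro ⟨w, hw, rfl⟩
    exact ⟨w, (hpred w).mp hw, rfl⟩
  · rintro ⟨w, hw, rfl⟩
    exact ⟨w, (hpred w).mpr hw, rfl⟩

/-- **CORE: the transfer of a twisted orbit sum from `i(t) δ₀` to `δ₀`.** -/
theorem core179 (hTC : TwCentC) (hcyc : IsCyclicData k k' l i s)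
    (hvs : ∀ y : k', Valued.v (s y) = Valued.v y)
    (n : ℕ) (φ : GL (Fin 2) k' → ℂ) (hinv : IsBiInv (InU n) φ)
    (Cb : Γ₀) (hCb1 : 1 ≤ Cb)
    (hCb : ∀ g : GL (Fin 2) k', φ g ≠ 0 → EntryLe (g : Matrix (Fin 2) (Fin 2) k') Cb)
    (γ₀ t γ₁ : GL (Fin 2) k) (a b A B : k)
    (ht : (t : Matrix (Fin 2) (Fin 2) k)
      = a • (1 : Matrix (Fin 2) (Fin 2) k) + b • (γ₀ : Matrix (Fin 2) (Fin 2) k))
    (hγ₁ : γ₁ = t ^ l * γ₀)
    (hγ₁' : (γ₁ : Matrix (Fin 2) (Fin 2) k)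
      = A • (1 : Matrix (Fin 2) (Fin 2) k) + B • (γ₀ : Matrix (Fin 2) (Fin 2) k))
    (hreg : IsReg γ₀)
    (ha : Valued.v (i a - 1) ≤ WithZero.exp (-((max n 1 : ℕ) : ℤ)))
    (hb : Valued.v (i b) * Cb ^ l ≤ WithZero.exp (-((max n 1 : ℕ) : ℤ)))
    (hA : Valued.v (i A) ≤ 1) (hB : Valued.v (i B) = 1)
    (δ₀ : GL (Fin 2) k') (hN : twNorm s l δ₀ = Matrix.GeneralLinearGroup.map i γ₀) (c : ℂ)
    (h : IsTwOrbSum s n φ (Matrix.GeneralLinearGroup.map i t * δ₀) c) :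
    IsTwOrbSum s n φ δ₀ c := by
  have hBne : B ≠ 0 := by
    intro h0
    rw [h0, map_zero, map_zero] at hB
    exact zero_ne_one hB
  exact orbSumGen_transfer179 (glAut s) (InU n) (InTwCentC s) φ δ₀
    (Matrix.GeneralLinearGroup.map i t * δ₀)
    (fun x => inTwCent_shift_iff179 i s l hTC hcyc γ₀ t γ₁ a b A B ht hγ₁ hγ₁' hBne hreg δ₀ hN x)
    (phi_shift179 i s l hcyc hvs n φ hinv Cb hCb1 hCb γ₀ t γ₁ a b A B ht hγ₁ hγ₁' hreg ha hb hA
      hB δ₀ hN)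
    (cIndex_shift179 i s l hTC hcyc n γ₀ t γ₁ a b A B ht hγ₁ hγ₁' hBne hreg δ₀ hN) h

end Estimate

end Fermat.Agent.LT.T6.H179

end
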